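/-
Row 37 (S43).  THE DEFORMATION CORE, SECOND FORM (helper94): the contract `Deform.Data` of helper1 WITHOUT the Hecke
element `g` (no (F1), no (K1), no ALPHA: no modular forms at level `Γ_H`, nothing at the prime `p`).

Same notation and same field names as `S43/Deform/Defs.lean`:
`W  = J_H[p]` localised at `(m, U_q - u)`  (level `Γ_H(q) ∩ Γ₀(M q)`; `W = W0` when `q ≢ 1 mod p`),
`W0 = J_0(M q)[p]` localised at `(m, U_q - u)`, `pr = π_* : W → W0` (identifies `W0` with `W / T W`),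
`T = δ - 1`, `S = ρ(σ)` (σ a generator of tame inertia at `q`, mapping to δ), `F = ρ(φ)` (φ a Frobenius at `q` fixing
`μ_q`), `al = U_q`, `A = K_0^⊥` (Weil pairing).

REMOVED: `g`, `g_mem`, `H3`, `ι`, `Tl`, `a`, `Tl_mem`, `nilp`, `unram`, `u_ne`.
ADDED:
* `u_sq : u * u = 1`  (`U_q = - w_q` on the `q`-new part at level `Γ₀(M q)`);
* `H5 : S - 1 = ∑ j, t j * e j` with `t j ∈ 𝕋` nilpotent and `e j` commuting with `𝕋`
  (`ρ̄` unramified at `q` + Eichler-Shimura + Chebotarev + Boston-Lenstra-Ribet on `W`: `σ - 1 ∈ m · 𝕋[G_ℚ]`).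
-/
import Mathlib

set_option autoImplicit false

namespace Fermat.Agent.S43.Deform2

/-- The data of the deformation core (no `g`). -/
structure Data (p : ℕ) [Fact p.Prime] : Type 1 where
  W : Type
  W0 : Type
  [acg : AddCommGroup W]
  [mod : Module (ZMod p) W]
  [fin : Module.Finite (ZMod p) W]
  [acg0 : AddCommGroup W0]
  [mod0 : Module (ZMod p) W0]
  [nontriv0 : Nontrivial W0]
  /-- `q = 1 + κ P`, `P = p ^ a` the exact power of `p` in `q - 1` (`P = 1` allowed) -/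
  P : ℕ
  κ : ℕ
  q : ℕ
  hq : q = 1 + κ * P
  hPp : ∃ a : ℕ, P = p ^ a
  hκ : (κ : ZMod p) ≠ 0
  /-- the (commutative) Hecke algebra acting on `W` -/
  𝕋 : Subalgebra (ZMod p) (Module.End (ZMod p) W)
  𝕋_comm : ∀ s ∈ 𝕋, ∀ t ∈ 𝕋, Commute s t
  T : Module.End (ZMod p) W
  al : Module.End (ZMod p) W
  alinv : Module.End (ZMod p) W
  T_mem : T ∈ 𝕋
  al_mem : al ∈ 𝕋
  alinv_mem : alinv ∈ 𝕋
  al_alinv : al * alinv = 1
  /-- Galois -/
  S : Module.End (ZMod p) W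
  F : Module.End (ZMod p) W
  S_comm : ∀ t ∈ 𝕋, Commute S t
  F_comm : ∀ t ∈ 𝕋, Commute F t
  tame : F * S = S ^ q * F
  /-- `Λ̄`-freeness -/
  T_pow : T ^ P = 0
  H1 : ∀ x, T x = 0 → ∃ y, x = (T ^ (P - 1)) y
  /-- the filtration -/
  A : Submodule (ZMod p) W
  A_stable : ∀ t ∈ 𝕋, ∀ x ∈ A, t x ∈ A
  H2a : ∀ x, S x - x ∈ A
  H2b : ∀ x, F x - al x ∈ A
  H2c : ∀ x ∈ A, S x = x + T x
  H2d : ∀ x ∈ A, F x = (q : ZMod p) • alinv x
  /-- level `Γ₀(M q)` -/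
  pr : W →ₗ[ZMod p] W0
  pr_surj : Function.Surjective pr
  ker_pr : ∀ x, pr x = 0 ↔ ∃ y, x = T y
  u : ZMod p
  u_sq : u * u = 1
  pr_al : ∀ x, pr (al x) = u • pr x
  /-- (E') on `W0` -/
  exact : ∀ x, pr (S x - x) = 0 → ∃ y, pr x = pr (S y - y)
  /-- `ρ̄` unramified at `q` + BLR on `W` -/
  J : Type
  [finJ : Fintype J]
  t : J → Module.End (ZMod p) W
  e : J → Module.End (ZMod p) W
  t_mem : ∀ j, t j ∈ 𝕋
  t_nil : ∀ j, IsNilpotent (t j)
  e_comm : ∀ j, ∀ s ∈ 𝕋, Commute (e j) s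
  H5 : S - 1 = ∑ j, t j * e j

attribute [instance] Data.acg Data.mod Data.fin Data.acg0 Data.mod0 Data.nontriv0 Data.finJ

end Fermat.Agent.S43.Deform2
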