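/-
Row 37 (S43).  `Deform2.false_of_data : Deform2.Data p → False` (helper94): the contract without `g` is contradictory.
Replaces `Deform.NodeCore` + `Endgame.false_of_data`.  Pure algebra (`S43/Core/NoG.lean`).
-/
import Fermat.Agent.S43.Deform2.Defs
import Fermat.Agent.S43.Core.NoG

set_option autoImplicit false

namespace Fermat.Agent.S43.Deform2

open Polynomial Finset

/-! ### two polynomial identities in characteristic `p` -/

theorem poly_one_add_pow (p : ℕ) [Fact p.Prime] (a : ℕ) :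
    ((1 : (ZMod p)[X]) + X) ^ (p ^ a) = 1 + X ^ (p ^ a) := by
  rw [add_pow_char_pow, one_pow]

theorem poly_geom (p : ℕ) [Fact p.Prime] (a : ℕ) :
    ∑ k ∈ range (p ^ a), ((1 : (ZMod p)[X]) + X) ^ k = X ^ (p ^ a - 1) := by
  have hpos : 0 < p ^ a := pow_pos (Fact.out : p.Prime).pos a
  have h := Commute.geom_sum₂_mul (Commute.one_right ((1 : (ZMod p)[X]) + X)) (p ^ a)
  simp only [one_pow, mul_one] at h
  rw [poly_one_add_pow, add_sub_cancel_left, add_sub_cancel_left] at h
  have h2 : X ^ (p ^ a) = X ^ (p ^ a - 1) * (X : (ZMod p)[X]) := by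
    rw [← pow_succ, Nat.sub_add_cancel hpos]
  rw [h2] at h
  exact mul_right_cancel₀ X_ne_zero h

variable {p : ℕ} [Fact p.Prime]

theorem end_one_add_pow {B : Type*} [Ring B] [Algebra (ZMod p) B] (T : B) (a : ℕ)
    (hT : T ^ (p ^ a) = 0) : (1 + T) ^ (p ^ a) = 1 := by
  have h := congrArg (aeval T) (poly_one_add_pow p a)
  simpa [hT] using h

theorem end_geom {B : Type*} [Ring B] [Algebra (ZMod p) B] (T : B) (a : ℕ) :
    ∑ k ∈ range (p ^ a), (1 + T) ^ k = T ^ (p ^ a - 1) := by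
  have h := congrArg (aeval T) (poly_geom p a)
  simpa using h

/-- `ker T ^ k ⊆ im T ^ (P - k)`. -/
theorem ker_pow_le {V : Type*} [AddCommGroup V] [Module (ZMod p) V] (T : Module.End (ZMod p) V) (P : ℕ)
    (H1 : ∀ x, T x = 0 → ∃ y, x = (T ^ (P - 1)) y) :
    ∀ k : ℕ, 1 ≤ k → k ≤ P → ∀ x, (T ^ k) x = 0 → ∃ y, x = (T ^ (P - k)) y := by
  intro k hk
  induction k, hk using Nat.le_induction with
  | base =>
    intro _ x hx
    exact H1 x (by simpa using hx)
  | succ k hk ih =>
    intro hkP x hx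
    rw [pow_succ, Module.End.mul_apply] at hx
    obtain ⟨y, hy⟩ := ih (by omega) (T x) hx
    have e : P - k = (P - (k + 1)) + 1 := by omega
    rw [e, pow_succ', Module.End.mul_apply] at hy
    obtain ⟨y', hy'⟩ := H1 (x - (T ^ (P - (k + 1))) y) (by rw [map_sub, hy, sub_self])
    have e2 : P - 1 = (P - (k + 1)) + k := by omega
    rw [e2, pow_add, Module.End.mul_apply] at hy'
    exact ⟨y + (T ^ k) y', by rw [map_add, ← hy', add_sub_cancel]⟩

/-- The Hecke algebra as a commutative ring. -/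
@[reducible] def commRing (D : Data p) : CommRing D.𝕋 :=
  { D.𝕋.toRing with mul_comm := fun a b => Subtype.ext (D.𝕋_comm a a.2 b b.2).eq }

theorem false_of_data (D : Data p) : False := by
  classical
  let _ : CommRing D.𝕋 := commRing D
  obtain ⟨a, hPa⟩ := D.hPp
  have hPpos : 0 < D.P := by rw [hPa]; exact pow_pos (Fact.out : p.Prime).pos a
  have smul_def : ∀ (r : D.𝕋) (w : D.W), r • w = (r : Module.End (ZMod p) D.W) w := fun _ _ => rfl
  -- linear maps over the Hecke algebra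
  have mkLin : ∀ f : Module.End (ZMod p) D.W, (∀ s ∈ D.𝕋, Commute f s) →
      ∃ f' : D.W →ₗ[D.𝕋] D.W, ∀ w, f' w = f w := by
    intro f hf
    refine ⟨{ toFun := f, map_add' := f.map_add, map_smul' := ?_ }, fun _ => rfl⟩
    intro r w
    show f ((r : Module.End (ZMod p) D.W) w) = (r : Module.End (ZMod p) D.W) (f w)
    rw [← Module.End.mul_apply, (hf r r.2).eq, Module.End.mul_apply]
  obtain ⟨Sg, hSg⟩ := mkLin D.S D.S_comm
  obtain ⟨Ph, hPh⟩ := mkLin D.F D.F_comm
  choose e' he' using fun j => mkLin (D.e j) (D.e_comm j)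
  let T' : D.𝕋 := ⟨D.T, D.T_mem⟩
  let α' : D.𝕋 := ⟨D.al, D.al_mem⟩
  let αi : D.𝕋 := ⟨D.alinv, D.alinv_mem⟩
  let β' : D.𝕋 := (D.q : D.𝕋) * αi
  have hSgpow : ∀ (k : ℕ) (w : D.W), (Sg ^ k) w = (D.S ^ k) w := by
    intro k
    induction k with
    | zero => intro w; rfl
    | succ n ih =>
      intro w
      rw [pow_succ, pow_succ, Module.End.mul_apply, Module.End.mul_apply, ih, hSg]
  have hcoeNat : ∀ (n : ℕ) (w : D.W), ((n : D.𝕋) : Module.End (ZMod p) D.W) w = (n : ZMod p) • w := by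
    intro n w
    have : ((n : D.𝕋) : Module.End (ZMod p) D.W) = (n : Module.End (ZMod p) D.W) := by
      exact_mod_cast rfl
    rw [this, Module.End.natCast_apply, Nat.cast_smul_eq_nsmul]
  have hδ : (1 + T') ^ D.P = 1 := by
    apply Subtype.ext
    have := end_one_add_pow (p := p) D.T a (by rw [← hPa]; exact D.T_pow)
    rw [← hPa] at this
    exact this
  have hNm : ((Core.Nm T' D.P : D.𝕋) : Module.End (ZMod p) D.W) = D.T ^ (D.P - 1) := by
    have h := end_geom (p := p) D.T a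
    rw [← hPa] at h
    rw [← h, Core.Nm]
    exact map_sum D.𝕋.val _ _
  let A' : Submodule D.𝕋 D.W :=
    { carrier := D.A
      add_mem' := D.A.add_mem
      zero_mem' := D.A.zero_mem
      smul_mem' := fun r x hx => D.A_stable r r.2 x hx }
  let DD : CoreNG.Data D.𝕋 D.W :=
    { T := T', α := α', β := β', P := D.P, κ := D.κ, Sg := Sg, Ph := Ph, A := A'
      hδ := hδ
      comm := by
        intro w
        rw [hSgpow, hPh, hPh, hSg, ← D.hq, ← Module.End.mul_apply, D.tame, Module.End.mul_apply]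
      Sg_sub := fun w => by rw [hSg]; exact D.H2a w
      Ph_sub := fun w => by rw [hPh]; exact D.H2b w
      Sg_A := fun x hx => by
        rw [hSg, D.H2c x hx, add_smul, one_smul]
        rfl
      Ph_A := fun x hx => by
        rw [hPh, D.H2d x hx]
        show _ = ((D.q : D.𝕋) : Module.End (ZMod p) D.W) (D.alinv x)
        rw [hcoeNat] }
  have ha : ∀ w, DD.a w = D.S w - w := fun w => by rw [CoreNG.Data.a_apply]; exact congrArg (· - w) (hSg w)
  have hTs : ∀ w : D.W, DD.T • w = D.T w := fun _ => rfl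
  have hnm : ∀ w : D.W, DD.nm • w = (D.T ^ (D.P - 1)) w := by
    intro w
    show ((Core.Nm T' D.P : D.𝕋) : Module.End (ZMod p) D.W) w = _
    rw [hNm]
  have hpr_alinv : ∀ x, D.pr (D.alinv x) = D.u • D.pr x := by
    intro x
    have h1 := D.pr_al (D.alinv x)
    rw [← Module.End.mul_apply, D.al_alinv, Module.End.one_apply] at h1
    rw [h1, smul_smul, D.u_sq, one_smul]
  -- (C0)
  have hc : ∀ w : D.W, DD.c • w =
      (D.q : ZMod p) • D.alinv w - D.al w - (D.κ : ZMod p) • D.al ((D.T ^ (D.P - 1)) w) := by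
    intro w
    have e1 : DD.c • w = β' • w - α' • w - ((D.κ : D.𝕋) * α' * Core.Nm T' D.P) • w := by
      show (β' - α' - (D.κ : D.𝕋) * α' * Core.Nm T' D.P) • w = _
      rw [sub_smul, sub_smul]
    rw [e1]
    congr 1
    · congr 1
      show ((D.q : D.𝕋) : Module.End (ZMod p) D.W) (D.alinv w) = _
      rw [hcoeNat]
    · rw [mul_smul, mul_smul]
      show ((D.κ : D.𝕋) : Module.End (ZMod p) D.W) (D.al (((Core.Nm T' D.P : D.𝕋) :
        Module.End (ZMod p) D.W) w)) = _
      rw [hcoeNat, hNm]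
  have hc0 : ∀ w : D.W, ∃ z : D.W, DD.c • w = DD.T • z := by
    intro w
    apply (D.ker_pr _).1
    rw [hc, map_sub, map_sub, map_smul, map_smul, hpr_alinv, D.pr_al, D.pr_al]
    rcases Nat.eq_or_lt_of_le (Nat.succ_le_of_lt hPpos) with h1 | h1
    · -- `P = 1`
      have hP1 : D.P = 1 := h1.symm
      have hq' : (D.q : ZMod p) = 1 + D.κ := by rw [D.hq, hP1]; push_cast; ring
      rw [hP1, Nat.sub_self, pow_zero, Module.End.one_apply, hq', add_smul, one_smul]
      abel
    · have ha0 : a ≠ 0 := by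
        rintro rfl
        rw [pow_zero] at hPa
        omega
      have hP0 : (D.P : ZMod p) = 0 := by
        rw [hPa]
        push_cast
        rw [ZMod.natCast_self, zero_pow ha0]
      have hq' : (D.q : ZMod p) = 1 := by rw [D.hq]; push_cast; rw [hP0, mul_zero, add_zero]
      have h0 : D.pr ((D.T ^ (D.P - 1)) w) = 0 := by
        apply (D.ker_pr _).2
        refine ⟨(D.T ^ (D.P - 2)) w, ?_⟩
        rw [← Module.End.mul_apply, ← pow_succ']
        congr 2
        omega
      rw [h0, hq', one_smul, smul_zero, smul_zero, sub_self, sub_zero]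
  have hker : ∀ w : D.W, DD.T • w = 0 → ∃ r : D.W, w = DD.nm • r := by
    intro w hw
    obtain ⟨y, hy⟩ := D.H1 w hw
    exact ⟨y, by rw [hnm]; exact hy⟩
  have hkerNm : ∀ w : D.W, DD.nm • w = 0 → ∃ r : D.W, w = DD.T • r := by
    intro w hw
    rw [hnm] at hw
    rcases Nat.eq_or_lt_of_le (Nat.succ_le_of_lt hPpos) with h1 | h1
    · have hP1 : D.P = 1 := h1.symm
      rw [hP1, Nat.sub_self, pow_zero, Module.End.one_apply] at hw
      exact ⟨0, by rw [hw, smul_zero]⟩
    · obtain ⟨y, hy⟩ := ker_pow_le D.T D.P D.H1 (D.P - 1) (by omega) (by omega) w hw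
      have e : D.P - (D.P - 1) = 1 := by omega
      rw [e, pow_one] at hy
      exact ⟨y, hy⟩
  have hE : ∀ w : D.W, (∃ r : D.W, DD.a w = DD.T • r) → ∃ s r : D.W, w = DD.a s + DD.T • r := by
    rintro w ⟨r, hr⟩
    rw [ha] at hr
    obtain ⟨y, hy⟩ := D.exact w ((D.ker_pr _).2 ⟨r, hr⟩)
    obtain ⟨r', hr'⟩ := (D.ker_pr (w - (D.S y - y))).1 (by rw [map_sub, hy, sub_self])
    exact ⟨y, r', by rw [ha, hTs, ← hr', add_sub_cancel]⟩
  have h5 : ∀ w : D.W, DD.a w = ∑ j ∈ (Finset.univ : Finset D.J),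
      (⟨D.t j, D.t_mem j⟩ : D.𝕋) • e' j w := by
    intro w
    rw [ha]
    have h := congrArg (fun f : Module.End (ZMod p) D.W => f w) D.H5
    simp only [LinearMap.sub_apply, Module.End.one_apply, LinearMap.sum_apply,
      Module.End.mul_apply] at h
    rw [h]
    refine Finset.sum_congr rfl fun j _ => ?_
    rw [he']
    rfl
  have hnil : ∀ j ∈ (Finset.univ : Finset D.J), IsNilpotent (⟨D.t j, D.t_mem j⟩ : D.𝕋) := by
    intro j _
    obtain ⟨n, hn⟩ := D.t_nil j
    exact ⟨n, Subtype.ext hn⟩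
  have : Module.Finite D.𝕋 D.W := by
    obtain ⟨s, hs⟩ := (Module.Finite.fg_top : (⊤ : Submodule (ZMod p) D.W).FG)
    refine ⟨⟨s, ?_⟩⟩
    rw [eq_top_iff]
    intro x _
    have hx : x ∈ Submodule.span (ZMod p) (s : Set D.W) := by rw [hs]; trivial
    refine Submodule.span_induction (p := fun y _ => y ∈ Submodule.span D.𝕋 (s : Set D.W))
      (fun y hy => Submodule.subset_span hy) (Submodule.zero_mem _)
      (fun y z _ _ hy hz => Submodule.add_mem _ hy hz) (fun c y _ hy => ?_) hx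
    have : c • y = (algebraMap (ZMod p) D.𝕋 c) • y := by
      rw [smul_def]
      simp [Module.algebraMap_end_apply]
    rw [this]
    exact Submodule.smul_mem _ _ hy
  -- the inverse of `κ α`
  let c' : D.𝕋 := algebraMap (ZMod p) D.𝕋 ((D.κ : ZMod p)⁻¹) * αi
  have hc' : ∀ w : D.W, (c' * ((D.κ : D.𝕋) * DD.α)) • w = w := by
    intro w
    rw [mul_smul, mul_smul, mul_smul]
    show (algebraMap (ZMod p) D.𝕋 ((D.κ : ZMod p)⁻¹) : Module.End (ZMod p) D.W)
      (D.alinv (((D.κ : D.𝕋) : Module.End (ZMod p) D.W) (D.al w))) = w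
    rw [hcoeNat, map_smul]
    have h1 : D.alinv (D.al w) = w := by
      rw [← Module.End.mul_apply, (D.𝕋_comm _ D.alinv_mem _ D.al_mem).eq, D.al_alinv,
        Module.End.one_apply]
    rw [h1]
    simp [Module.algebraMap_end_apply, smul_smul, mul_inv_cancel₀ D.hκ]
  have key := CoreNG.core DD hc0 hker hkerNm hE Finset.univ _ e' h5 hnil c' hc'
  obtain ⟨x, hx⟩ := exists_ne (0 : D.W0)
  obtain ⟨w, rfl⟩ := D.pr_surj x
  obtain ⟨r, hr⟩ := key w
  exact hx ((D.ker_pr w).2 ⟨r, hr⟩)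

end Fermat.Agent.S43.Deform2
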